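import Fermat.Agent.HeckeConverse.Converse

/-!
# Level one

For even `k > 0` the `q`-coefficients of the modular forms of weight `k` for `SL(2, ℤ)` are the
sequences whose completed Dirichlet series continue with the functional equation `s ↦ k - s` of
sign `i ^ k`.
-/

set_option autoImplicit false

noncomputable section

namespace FA.HeckeConverse

open UpperHalfPlane hiding I
open Complex Filter Topology Asymptotics Set
open scoped Real MatrixGroups Manifold ModularForm

variable {k : ℕ} {a : ℕ → ℂ} {K : ℝ} {σ : ℕ}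

theorem qSum_add_one (a : ℕ → ℂ) (z : ℂ) : qSum 1 a (z + 1) = qSum 1 a z := by
  have h : Function.Periodic.qParam 1 (z + 1) = Function.Periodic.qParam 1 z := by
    simp [Function.Periodic.qParam, mul_add, Complex.exp_add, Complex.exp_two_pi_mul_I]
  rw [qSum, qSum]
  simp [h]

theorem I_pow_mul_cpow (k : ℕ) (z : ℂ) : I ^ k * (z / I) ^ (((k : ℝ) : ℂ)) = z ^ k := by
  rw [ofReal_natCast, cpow_natCast, ← mul_pow, mul_div_cancel₀ _ I_ne_zero]

/-- The modular form with given `q`-expansion. -/
theorem exists_form_of_transforms (ha : Growth a K σ)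
    (h : Transforms 1 k (I ^ k) a a) :
    ∃ f : ModularForm 𝒮ℒ (k : ℤ), ∀ n, (qExpansion 1 f).coeff n = a n := by
  obtain ⟨f, hf⟩ : ∃ f : ℍ → ℂ, f = fun z : ℍ => qSum 1 a z := ⟨_, rfl⟩
  have hsum : ∀ z : ℍ, HasSum (fun n : ℕ => a n • Function.Periodic.qParam 1 (z : ℂ) ^ n) (f z) :=
    fun z => by simpa [hf] using hasSum_qSum ha one_pos z.im_pos
  have hT : f ∣[(k : ℤ)] ModularGroup.T = f := by
    ext z
    rw [ModularForm.SL_slash_apply, UpperHalfPlane.modular_T_smul]
    simp [hf, ModularGroup.T, UpperHalfPlane.denom, add_comm (1 : ℂ) z, qSum_add_one]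
  have hS : f ∣[(k : ℤ)] ModularGroup.S = f := by
    ext z
    have hz : (z : ℂ) ≠ 0 := z.ne_zero
    rw [ModularForm.SL_slash_apply, UpperHalfPlane.modular_S_smul, ModularGroup.denom_S]
    simp only [hf]
    rw [show (-(z : ℂ))⁻¹ = -1 / (z : ℂ) by rw [inv_neg, neg_div, one_div],
      h z z.im_pos, I_pow_mul_cpow, zpow_neg, zpow_natCast]
    field_simp
  have hall := SlashInvariantForm.slash_action_generators_SL2Z hS hT
  have hmd : MDiff f := by
    rw [UpperHalfPlane.mdifferentiable_iff]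
    refine (differentiableOn_qSum ha one_pos).congr fun z hz => ?_
    simp [hf, ofComplex_apply_of_im_pos hz]
  have hbd : IsBoundedAtImInfty f := isBoundedAtImInfty_of_hasSum_qExpansion one_pos hsum
  let F : ModularForm 𝒮ℒ (k : ℤ) :=
    { toFun := f
      slash_action_eq' := fun _ ⟨γ, hγ⟩ => hγ ▸ hall γ
      holo' := hmd
      bdd_at_cusps' := fun {c} hc => by
        rw [Subgroup.IsArithmetic.isCusp_iff_isCusp_SL2Z] at hc
        rw [OnePoint.isBoundedAt_iff_forall_SL2Z hc]
        intro γ _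
        rw [hall γ]
        exact hbd }
  exact ⟨F, fun n =>
    (ModularFormClass.qExpansion_coeff_unique (f := F) one_pos one_mem_strictPeriods_SL hsum
      n).symm⟩

theorem growth_coeff (hk : 0 < k) (f : ModularForm 𝒮ℒ (k : ℤ)) :
    ∃ K, Growth (fun n => (qExpansion 1 f).coeff n) K k := by
  have h := ModularFormClass.qExpansion_isBigO (k := (k : ℤ)) (by positivity) f
  rw [Subgroup.strictWidthInfty_SL2Z] at h
  obtain ⟨c, hc⟩ := h.bound
  obtain ⟨N, hN⟩ := eventually_atTop.1 hc
  refine ⟨|c| + ∑ n ∈ Finset.range N, ‖(qExpansion 1 f).coeff n‖, fun n hn => ?_⟩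
  have hn1 : (1 : ℝ) ≤ (n : ℝ) ^ k := one_le_pow₀ (by exact_mod_cast Nat.pos_of_ne_zero hn)
  have hS : 0 ≤ ∑ m ∈ Finset.range N, ‖(qExpansion 1 f).coeff m‖ :=
    Finset.sum_nonneg fun _ _ => norm_nonneg _
  rcases lt_or_ge n N with hlt | hge
  · refine (Finset.single_le_sum (f := fun m => ‖(qExpansion 1 f).coeff m‖)
      (fun _ _ => norm_nonneg _) (Finset.mem_range.2 hlt)).trans ?_
    refine le_trans ?_ (le_mul_of_one_le_right (by positivity) hn1)
    linarith [abs_nonneg c]
  · refine (hN n hge).trans ?_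
    rw [add_mul]
    refine le_trans ?_ (le_add_of_nonneg_right (mul_nonneg hS (by positivity)))
    simp only [Real.norm_eq_abs, zpow_natCast]
    rw [abs_of_nonneg (by positivity : (0 : ℝ) ≤ (n : ℝ) ^ k)]
    exact mul_le_mul_of_nonneg_right (le_abs_self c) (by positivity)

theorem transforms_coeff (hk : 0 < k) (f : ModularForm 𝒮ℒ (k : ℤ)) :
    Transforms 1 k (I ^ k) (fun n => (qExpansion 1 f).coeff n)
      (fun n => (qExpansion 1 f).coeff n) := by
  intro z hz
  obtain ⟨K, hK⟩ := growth_coeff hk f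
  have hval : ∀ w : ℍ, qSum 1 (fun n => (qExpansion 1 f).coeff n) w = f w := fun w =>
    (hasSum_qSum hK one_pos w.im_pos).unique (by
      simpa using ModularForm.hasSum_qExpansion (f := f) one_pos one_mem_strictPeriods_SL w)
  obtain ⟨w, hw⟩ : ∃ w : ℍ, (w : ℂ) = z := ⟨⟨z, hz⟩, rfl⟩
  subst hw
  have hS : ((f : ℍ → ℂ) ∣[(k : ℤ)] ModularGroup.S) w = f w := by
    rw [ModularForm.SL_slash]
    exact congrFun (SlashInvariantFormClass.slash_action_eq f _ ⟨ModularGroup.S, rfl⟩) w
  rw [ModularForm.SL_slash_apply, ModularGroup.denom_S, zpow_neg, zpow_natCast] at hS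
  rw [I_pow_mul_cpow, hval, ← hS]
  have e : ((ModularGroup.S • w : ℍ) : ℂ) = -1 / (w : ℂ) := by
    rw [UpperHalfPlane.modular_S_smul]
    change (-(w : ℂ))⁻¹ = _
    rw [inv_neg, neg_div, one_div]
  rw [← e, hval]
  field_simp [w.ne_zero]

/-- **Hecke's converse theorem in level one.** -/
theorem levelOne_iff (hk : 0 < k) (a : ℕ → ℂ) :
    (∃ f : ModularForm 𝒮ℒ (k : ℤ), ∀ n, (qExpansion 1 f).coeff n = a n) ↔
      (∃ K σ, Growth a K σ) ∧ Continues 1 k (I ^ k) a a := by
  have hk' : (0 : ℝ) < k := by exact_mod_cast hk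
  constructor
  · rintro ⟨f, hf⟩
    obtain ⟨K, hK⟩ := growth_coeff hk f
    have h := transforms_coeff hk f
    have e : (fun n => (qExpansion 1 f).coeff n) = a := funext hf
    rw [e] at hK h
    exact ⟨⟨K, k, hK⟩,
      continues_of_transforms one_pos hk' (pow_ne_zero _ I_ne_zero) hK hK h⟩
  · rintro ⟨⟨K, σ, hK⟩, h⟩
    exact exists_form_of_transforms hK (transforms_of_continues one_pos hk' hK hK h)

/-- The completed series determines a cusp form of weight at most `12`. -/
theorem eq_tau_of_continues {k : ℕ} (hk : 0 < k) (hk12 : k ≤ 12) (hg : ∃ K σ, Growth a K σ)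
    (h : Continues 1 k (I ^ k) a a) (h0 : a 0 = 0) :
    (k < 12 → ∀ n, a n = 0) ∧
      (k = 12 → ∀ n, a n = a 1 * (qExpansion 1 ModularForm.discriminant).coeff n) := by
  obtain ⟨f, hf⟩ := (levelOne_iff hk a).2 ⟨hg, h⟩
  have hz : (qExpansion 1 f).coeff 0 = 0 := by rw [hf, h0]
  refine ⟨fun hlt n => ?_, fun h12 n => ?_⟩
  · have hf0 : f = 0 := ModularForm.sturm_bound_levelOne_nat (by
      rw [Nat.div_eq_of_lt hlt]
      refine lt_of_le_of_ne zero_le fun e => ?_
      have := (PowerSeries.order_eq_nat.1 e.symm).1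
      exact this hz)
    rw [← hf, hf0]
    simp [qExpansion_zero]
  · subst h12
    obtain ⟨c, hc⟩ := CuspForm.exists_smul_discriminant_of_weight_eq_twelve
      (ModularForm.toCuspForm f hz)
    have e : (f : ℍ → ℂ) = c • ModularForm.discriminant := by
      funext z
      have := congrArg (fun g : CuspForm 𝒮ℒ 12 => g z) hc
      simpa [CuspForm.coe_discriminant] using this.symm
    have hn : ∀ m, a m = c * (qExpansion 1 ModularForm.discriminant).coeff m := fun m => by
      rw [← hf, e, ← CuspForm.coe_discriminant,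
        ModularForm.qExpansion_smul one_pos one_mem_strictPeriods_SL, PowerSeries.coeff_smul,
        smul_eq_mul]
    rw [hn n, hn 1, ModularForm.discriminant_qExpansion_coeff_one, mul_one]

end FA.HeckeConverse

end
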