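import Fermat.Agent.HeckeConverse.Forward
import Fermat.Agent.Hamburger.Inversion

/-!
# From the continuation to the transformation

Phragmén-Lindelöf gives decay of `E` in the strip, so the line of Mellin inversion moves from
`re s = x₁` to `re s = k - x₁` across the poles at `0` and `k`. This is the transformation on the
imaginary axis, and the identity theorem gives it everywhere.
-/

set_option autoImplicit false

noncomputable section

namespace FA.HeckeConverse

open Complex Filter Topology Asymptotics Set MeasureTheory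
open scoped Real

variable {lam k : ℝ} {C : ℂ} {a b : ℕ → ℂ} {K : ℝ} {σ : ℕ}

/-- The data of the converse theorem, with a line far to the right. -/
structure ConverseData (lam k : ℝ) (C : ℂ) (a b : ℕ → ℂ) (E : ℂ → ℂ) (K : ℝ) (σ : ℕ) (x₁ : ℝ) :
    Prop where
  lam_pos : 0 < lam
  k_pos : 0 < k
  growth_a : Growth a K σ
  growth_b : Growth b K σ
  entire : Differentiable ℂ E
  bounded : ∀ x y : ℝ, ∃ M : ℝ, ∀ s : ℂ, x ≤ s.re → s.re ≤ y → ‖E s‖ ≤ M
  line_gt : (σ : ℝ) + 1 < x₁
  k_lt : k < x₁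
  right_eq : ∀ s : ℂ, s.re = x₁ → E s = completed lam a s + a 0 / s + C * b 0 / (k - s)
  left_eq : ∀ s : ℂ, s.re = x₁ → E (k - s) = C * (completed lam b s + b 0 / s) + a 0 / (k - s)

variable {E : ℂ → ℂ} {x₁ : ℝ}

theorem ConverseData.pos (hd : ConverseData lam k C a b E K σ x₁) : 0 < x₁ :=
  hd.k_pos.trans hd.k_lt

/-- The bound `‖s E s‖ ≤ M` on the strip. -/
theorem ConverseData.exists_norm_mul_le (hd : ConverseData lam k C a b E K σ x₁) :
    ∃ M : ℝ, 0 ≤ M ∧ ∀ s : ℂ, k - x₁ ≤ s.re → s.re ≤ x₁ → ‖s * E s‖ ≤ M := by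
  have hx := hd.pos
  have hk := hd.k_lt
  have hk0 := hd.k_pos
  obtain ⟨Ba, hBa0, hBa⟩ := exists_norm_completed_le hd.growth_a hd.lam_pos hd.line_gt
  obtain ⟨Bb, hBb0, hBb⟩ := exists_norm_completed_le hd.growth_b hd.lam_pos hd.line_gt
  obtain ⟨M₀, hM₀⟩ := hd.bounded (k - x₁) x₁
  set M := max (Ba + ‖a 0‖ + ‖C * b 0‖ * (1 + k / (x₁ - k)))
    (‖C‖ * ((1 + k / x₁) * Bb) + ‖C * b 0‖ * (1 + k / x₁) + ‖a 0‖)
  have hxk : 0 < x₁ - k := by linarith
  obtain ⟨c, hc⟩ : ∃ c, c = π / (2 * (x₁ - (k - x₁))) := ⟨_, rfl⟩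
  have hw : 0 < x₁ - (k - x₁) := by linarith
  have hc0 : 0 < c := by rw [hc]; positivity
  refine ⟨M, le_max_of_le_left (by positivity), fun z hz1 hz2 => PhragmenLindelof.vertical_strip
    (f := fun s => s * E s) (differentiable_id.mul hd.entire).diffContOnCl ⟨c, ?_, 1, ?_⟩
    (fun s hs => ?_) (fun s hs => ?_) hz1 hz2⟩
  · rw [hc, div_lt_div_iff_of_pos_left Real.pi_pos (by positivity) hw]
    linarith
  · refine IsBigO.of_bound ((|M₀| + 1) * ((x₁ + 1) * (1 + c⁻¹))) ?_
    rw [eventually_inf_principal]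
    refine Eventually.of_forall fun s hs => ?_
    rw [mem_preimage, mem_Ioo] at hs
    rw [norm_mul, Real.norm_of_nonneg (Real.exp_pos _).le, one_mul]
    have h1 : |s.im| + 1 ≤ (1 + c⁻¹) * Real.exp (Real.exp (c * |s.im|)) := by
      have h2 : c * |s.im| + 1 + 1 ≤ Real.exp (Real.exp (c * |s.im|)) :=
        (add_le_add (Real.add_one_le_exp _) le_rfl).trans (Real.add_one_le_exp _)
      have h3 : c * |s.im| ≤ Real.exp (Real.exp (c * |s.im|)) := by linarith
      rw [← div_le_div_iff_of_pos_right hc0] at h3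
      have : c * |s.im| / c = |s.im| := by field_simp
      rw [this, div_eq_inv_mul] at h3
      nlinarith [mul_nonneg hc0.le (abs_nonneg s.im)]
    have h4 : ‖s‖ ≤ (x₁ + 1) * (|s.im| + 1) := by
      refine (norm_le_abs_re_add_abs_im s).trans ?_
      have : |s.re| ≤ x₁ := abs_le.2 ⟨by linarith [hs.1], hs.2.le⟩
      nlinarith [abs_nonneg s.im]
    calc ‖s‖ * ‖E s‖ ≤ (x₁ + 1) * ((1 + c⁻¹) * Real.exp (Real.exp (c * |s.im|))) * (|M₀| + 1) :=
          mul_le_mul (h4.trans (mul_le_mul_of_nonneg_left h1 (by positivity)))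
            (((hM₀ s hs.1.le hs.2.le).trans (le_abs_self M₀)).trans (by linarith)) (norm_nonneg _)
            (by positivity)
      _ = _ := by ring
  · obtain ⟨w, rfl⟩ : ∃ w, s = (k : ℂ) - w := ⟨k - s, by ring⟩
    have hw : w.re = x₁ := by
      simp at hs
      linarith
    have hw0 : w ≠ 0 := fun e => by simp [e] at hw; linarith
    have hkw : (k : ℂ) - w ≠ 0 := fun e => by
      have := congrArg Complex.re e
      simp at this
      linarith
    have hr : ‖(k : ℂ) - w‖ ≤ (1 + k / x₁) * ‖w‖ := by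
      refine (norm_sub_le _ _).trans ?_
      rw [Complex.norm_real, Real.norm_of_nonneg hk0.le]
      have : x₁ ≤ ‖w‖ := hw ▸ Complex.re_le_norm w
      have : k ≤ k / x₁ * ‖w‖ := by
        rw [div_mul_eq_mul_div, le_div_iff₀ hx]
        exact mul_le_mul_of_nonneg_left this hk0.le
      linarith
    have e : ((k : ℂ) - w) * E (k - w) = C * (((k : ℂ) - w) * completed lam b w) +
        C * b 0 * (((k : ℂ) - w) / w) + a 0 := by
      rw [hd.left_eq w hw]
      field_simp
    rw [e]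
    refine ((norm_add₃_le).trans (add_le_add (add_le_add ?_ ?_) le_rfl)).trans (le_max_right _ _)
    · rw [norm_mul]
      refine mul_le_mul_of_nonneg_left ?_ (norm_nonneg _)
      rw [norm_mul]
      calc ‖(k : ℂ) - w‖ * ‖completed lam b w‖
          ≤ (1 + k / x₁) * ‖w‖ * ‖completed lam b w‖ :=
            mul_le_mul_of_nonneg_right hr (norm_nonneg _)
        _ ≤ (1 + k / x₁) * Bb := by
            rw [mul_assoc, ← norm_mul]
            exact mul_le_mul_of_nonneg_left (hBb w hw).1 (by positivity)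
    · rw [norm_mul (C * b 0), norm_div]
      refine mul_le_mul_of_nonneg_left ?_ (norm_nonneg _)
      rw [div_le_iff₀ (norm_pos_iff.2 hw0)]
      exact hr
  · have hs0 : s ≠ 0 := fun e => by simp [e] at hs; linarith
    have hks : (k : ℂ) - s ≠ 0 := fun e => by
      have := congrArg Complex.re e
      simp at this
      linarith
    have e : s * E s = s * completed lam a s + a 0 + C * b 0 * (s / (k - s)) := by
      rw [hd.right_eq s hs]
      field_simp
    rw [e]
    refine ((norm_add₃_le).trans (add_le_add (add_le_add (hBa s hs).1 le_rfl) ?_)).trans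
      (le_max_left _ _)
    rw [norm_mul (C * b 0), norm_div]
    refine mul_le_mul_of_nonneg_left ?_ (norm_nonneg _)
    rw [div_le_iff₀ (norm_pos_iff.2 hks)]
    have h1 : x₁ - k ≤ ‖(k : ℂ) - s‖ := by
      have := Complex.abs_re_le_norm ((k : ℂ) - s)
      simp only [sub_re, ofReal_re, hs] at this
      exact (le_of_eq (by rw [abs_of_nonpos (by linarith)]; ring)).trans this
    have h2 : ‖s‖ ≤ k + ‖(k : ℂ) - s‖ := by
      have := norm_sub_le (k : ℂ) ((k : ℂ) - s)
      rwa [sub_sub_cancel, Complex.norm_real, Real.norm_of_nonneg hk0.le] at this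
    have h3 : k ≤ k / (x₁ - k) * ‖(k : ℂ) - s‖ := by
      rw [div_mul_eq_mul_div, le_div_iff₀ hxk]
      exact mul_le_mul_of_nonneg_left h1 hk0.le
    linarith

/-- `x ^ (-s)`. -/
def powFun (x : ℝ) (s : ℂ) : ℂ := (x : ℂ) ^ (-s)

/-- The integrand `M s x ^ (-s)`, `M` the continued series with its poles. -/
def lineFun (k : ℝ) (C : ℂ) (a b : ℕ → ℂ) (E : ℂ → ℂ) (x : ℝ) (s : ℂ) : ℂ :=
  (E s - a 0 / s - C * b 0 / (k - s)) * powFun x s

theorem lineFun_right (hd : ConverseData lam k C a b E K σ x₁) (x : ℝ) (y : ℝ) :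
    lineFun k C a b E x (x₁ + y * I) =
      completed lam a (x₁ + y * I) * (x : ℂ) ^ (-((x₁ : ℂ) + y * I)) := by
  rw [lineFun, hd.right_eq _ (by simp), powFun]
  ring

theorem lineFun_left (hd : ConverseData lam k C a b E K σ x₁) {x : ℝ} (hx : 0 < x) (y : ℝ) :
    lineFun k C a b E x ((k - x₁ : ℝ) + y * I) = C * ((x ^ (-k) : ℝ) : ℂ) *
      (completed lam b (x₁ + (-y : ℝ) * I) * ((1 / x : ℝ) : ℂ) ^ (-((x₁ : ℂ) + (-y : ℝ) * I))) := by
  obtain ⟨w, hw⟩ : ∃ w : ℂ, w = x₁ + (-y : ℝ) * I := ⟨_, rfl⟩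
  have hx' : (x : ℂ) ≠ 0 := ofReal_ne_zero.2 hx.ne'
  have hs : ((k - x₁ : ℝ) : ℂ) + y * I = (k : ℂ) - w := by rw [hw]; push_cast; ring
  rw [← hw, hs, lineFun, hd.left_eq w (by simp [hw]), powFun, sub_sub_cancel, neg_sub,
    one_div, ofReal_inv, inv_cpow _ _ (by rw [arg_ofReal_of_nonneg hx.le]; exact Real.pi_pos.ne),
    ← cpow_neg, neg_neg, Complex.ofReal_cpow hx.le, ofReal_neg, sub_eq_add_neg w, cpow_add _ _ hx']
  ring

theorem verticalIntegrable_completed (ha : Growth a K σ) (hl : 0 < lam) {x : ℝ}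
    (hx : (σ : ℝ) + 1 < x) : Integrable fun y : ℝ => completed lam a (x + y * I) := by
  obtain ⟨B, hB0, hB⟩ := exists_norm_completed_le ha hl hx
  have hσ : (1 : ℝ) ≤ (σ : ℝ) + 1 := le_add_of_nonneg_left (Nat.cast_nonneg σ)
  have hd : ∀ s : ℂ, (σ : ℝ) + 1 < s.re → DifferentiableAt ℂ (completed lam a) s := fun s hs => by
    refine ((DifferentiableAt.const_cpow differentiableAt_id.neg (Or.inl ?_)).mul
      (Complex.differentiableAt_Gamma s fun m e => ?_)).mul ?_
    · exact_mod_cast (show (2 * π / lam : ℝ) ≠ 0 by positivity)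
    · rw [e] at hs
      simp at hs
      linarith [Nat.cast_nonneg (α := ℝ) m]
    · have habs : LSeries.abscissaOfAbsConv a ≤ (((σ : ℝ) + 1 : ℝ) : EReal) :=
        LSeries.abscissaOfAbsConv_le_of_le_const_mul_rpow (x := σ)
          ⟨K, fun n hn => by rw [Real.rpow_natCast]; exact ha n hn⟩ |>.trans
            (le_of_eq (by norm_cast))
      exact (LSeries_analyticOnNhd a s (lt_of_le_of_lt habs (EReal.coe_lt_coe_iff.2 hs)))
        |>.differentiableAt
  have hcont : Continuous fun y : ℝ => completed lam a (x + y * I) :=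
    continuous_iff_continuousAt.2 fun y =>
      (hd _ (by simpa using hx)).continuousAt.comp' (f := fun y : ℝ => (x : ℂ) + y * I)
        (by fun_prop)
  refine (integrable_inv_one_add_sq.const_mul B).mono' hcont.aestronglyMeasurable
    (Eventually.of_forall fun y => ?_)
  have h := (hB ((x : ℂ) + y * I) (by simp)).2
  have h2 : 1 + y ^ 2 ≤ ‖((x : ℂ) + y * I) * (((x + 1 : ℝ) : ℂ) - 1 + y * I + 1)‖ := by
    have := FA.Hamburger.norm_quad_ge (σ := x + 1) (by rw [abs_of_pos] <;> linarith)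
      (by rw [abs_of_pos] <;> linarith) y
    refine this.trans (le_of_eq ?_)
    congr 1
    push_cast
    ring
  rw [show ((x + 1 : ℝ) : ℂ) - 1 = (x : ℂ) by push_cast; ring] at h2
  rw [norm_mul] at h
  rw [← div_eq_mul_inv, le_div_iff₀ (by positivity), mul_comm]
  exact (mul_le_mul_of_nonneg_right h2 (norm_nonneg _)).trans h

/-- Mellin inversion on the line `re s = x₁`. -/
theorem integral_completed (ha : Growth a K σ) (hl : 0 < lam) {x₁ : ℝ} (hx₁ : (σ : ℝ) + 1 < x₁)
    {x : ℝ} (hx : 0 < x) :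
    ∫ y : ℝ, completed lam a (x₁ + y * I) * (x : ℂ) ^ (-((x₁ : ℂ) + y * I)) =
      2 * π * axis lam a x := by
  have hm : ∀ y : ℝ, mellin (axis lam a) (x₁ + y * I) = completed lam a (x₁ + y * I) :=
    fun y => mellin_axis ha hl (by simpa using hx₁)
  have h := mellinInv_mellin_eq x₁ (axis lam a) hx
    (mellinConvergent_axis ha hl (by simpa using hx₁))
    ((verticalIntegrable_completed ha hl hx₁).congr (Eventually.of_forall fun y => (hm y).symm))
    ((continuousOn_axis ha hl).continuousAt (Ioi_mem_nhds hx))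
  rw [← h, mellinInv]
  simp only [hm, smul_eq_mul, Complex.real_smul]
  have e : (∫ y : ℝ, completed lam a (x₁ + y * I) * (x : ℂ) ^ (-((x₁ : ℂ) + y * I))) =
      ∫ y : ℝ, (x : ℂ) ^ (-((x₁ : ℂ) + y * I)) * completed lam a (x₁ + y * I) :=
    integral_congr_ae (Eventually.of_forall fun y => mul_comm _ _)
  rw [e]
  push_cast
  field_simp
  simp only [mul_comm I]

/-- **The transformation on the imaginary axis.** -/
theorem ConverseData.axis_relation (hd : ConverseData lam k C a b E K σ x₁) {x : ℝ} (hx : 0 < x) :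
    qSum lam a (I * x) = C * ((x ^ (-k) : ℝ) : ℂ) * qSum lam b (I * (1 / x : ℝ)) := by
  have hl := hd.lam_pos
  have hk0 := hd.k_pos
  have hkx := hd.k_lt
  have hx₁ := hd.pos
  have hx' : (x : ℂ) ≠ 0 := ofReal_ne_zero.2 hx.ne'
  obtain ⟨M, hM0, hM⟩ := hd.exists_norm_mul_le
  obtain ⟨F, hF⟩ : ∃ F : ℂ → ℂ, F = powFun x := ⟨_, rfl⟩
  have hFd : Differentiable ℂ F := hF ▸ differentiable_id.neg.const_cpow (Or.inl hx')
  obtain ⟨D, hD⟩ : ∃ D : ℂ → ℂ, D = fun s =>
      E s * F s - a 0 * dslope F 0 s + C * b 0 * dslope F k s := ⟨_, rfl⟩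
  have hDd : Differentiable ℂ D := by
    have h : ∀ c : ℂ, Differentiable ℂ (dslope F c) := fun c =>
      differentiableOn_univ.1 ((Complex.differentiableOn_dslope univ_mem).2 hFd.differentiableOn)
    rw [hD]
    exact ((hd.entire.mul hFd).sub ((h 0).const_mul _)).add ((h k).const_mul _)
  have hsplit : ∀ s : ℂ, s ≠ 0 → s ≠ k → D s = lineFun k C a b E x s + a 0 * F 0 * s⁻¹ -
      C * b 0 * F k * (s - k)⁻¹ := fun s h0 h1 => by
    have h1' : s - (k : ℂ) ≠ 0 := sub_ne_zero.2 h1
    have h1'' : (k : ℂ) - s ≠ 0 := sub_ne_zero.2 (Ne.symm h1)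
    rw [hD]
    simp only
    rw [dslope_of_ne _ h1, dslope_of_ne _ h0, slope_def_field, slope_def_field, sub_zero, lineFun,
      ← hF]
    rw [show C * b 0 / ((k : ℂ) - s) = -(C * b 0 / (s - k)) by rw [← div_neg, neg_sub]]
    ring
  obtain ⟨B, hB⟩ : ∃ B, B = x ^ (-x₁) + x ^ (-(k - x₁)) := ⟨_, rfl⟩
  have hB0 : 0 ≤ B := by rw [hB]; positivity
  have hFB : ∀ s : ℂ, k - x₁ ≤ s.re → s.re ≤ x₁ → ‖F s‖ ≤ B := fun s h1 h2 => by
    rw [hF, powFun, norm_cpow_eq_rpow_re_of_pos hx, neg_re, hB]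
    rcases le_total x 1 with h | h
    · exact (Real.rpow_le_rpow_of_exponent_ge hx h (by linarith)).trans
        (le_add_of_nonneg_right (Real.rpow_nonneg hx.le _))
    · exact (Real.rpow_le_rpow_of_exponent_le h (by linarith)).trans
        (le_add_of_nonneg_left (Real.rpow_nonneg hx.le _))
  obtain ⟨N, hN⟩ : ∃ N, N = M * B + ‖a 0‖ * (B + ‖F 0‖) + ‖C * b 0‖ * (B + ‖F k‖) := ⟨_, rfl⟩
  have hN0 : 0 ≤ N := by rw [hN]; positivity
  have hhor : ∀ u y : ℝ, u ∈ Icc (k - x₁) x₁ → 1 ≤ |y| →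
      ‖D ((u : ℂ) + y * I)‖ ≤ N / |y| := by
    intro u y hu hy
    obtain ⟨s, hs⟩ : ∃ s : ℂ, s = (u : ℂ) + y * I := ⟨_, rfl⟩
    have hy0 : 0 < |y| := by linarith
    have hre : s.re = u := by simp [hs]
    have hn : |y| ≤ ‖s‖ := by simpa [hs] using Complex.abs_im_le_norm s
    have hn1 : |y| ≤ ‖s - k‖ := by simpa [hs] using Complex.abs_im_le_norm (s - k)
    have h0 : s ≠ 0 := fun e => by rw [e, norm_zero] at hn; linarith
    have h1 : s ≠ k := fun e => by rw [e, sub_self, norm_zero] at hn1; linarith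
    have hFs := hFB s (hre ▸ hu.1) (hre ▸ hu.2)
    have hE : ‖E s‖ ≤ M / |y| := by
      rw [le_div_iff₀ hy0]
      refine le_trans ?_ (hM s (hre ▸ hu.1) (hre ▸ hu.2))
      rw [norm_mul, mul_comm]
      exact mul_le_mul_of_nonneg_right hn (norm_nonneg _)
    have hsl : ∀ c : ℂ, s ≠ c → |y| ≤ ‖s - c‖ → ‖dslope F c s‖ ≤ (B + ‖F c‖) / |y| :=
      fun c hc hyc => by
      rw [dslope_of_ne _ hc, slope_def_field, norm_div]
      exact div_le_div₀ (by positivity) ((norm_sub_le _ _).trans (by linarith)) hy0 hyc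
    rw [← hs, hD, hN, add_div, add_div]
    refine (norm_add_le _ _).trans (add_le_add ((norm_sub_le _ _).trans (add_le_add ?_ ?_)) ?_)
    · rw [norm_mul, ← div_mul_eq_mul_div]
      exact mul_le_mul hE hFs (norm_nonneg _) (by positivity)
    · rw [norm_mul, mul_div_assoc]
      exact mul_le_mul_of_nonneg_left (hsl 0 h0 (by simpa using hn)) (norm_nonneg _)
    · rw [norm_mul, mul_div_assoc]
      exact mul_le_mul_of_nonneg_left (hsl k h1 hn1) (norm_nonneg _)
  -- the rectangle
  have hrect : ∀ T : ℝ, 1 ≤ T → ‖(∫ y in (-T)..T, D ((x₁ : ℂ) + y * I)) -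
      ∫ y in (-T)..T, D (((k - x₁ : ℝ) : ℂ) + y * I)‖ ≤ 2 * (2 * x₁ - k) * N / T := fun T hT => by
    have h := Complex.integral_boundary_rect_eq_zero_of_differentiableOn D
      (((k - x₁ : ℝ) : ℂ) + ((-T : ℝ) : ℂ) * I) ((x₁ : ℂ) + (T : ℂ) * I) hDd.differentiableOn
    simp only [add_re, ofReal_re, mul_re, I_re, mul_zero, ofReal_im, I_im, mul_one, sub_self,
      add_zero, add_im, mul_im, zero_add, smul_eq_mul] at h
    have hb : ∀ y : ℝ, |y| = T →
        ‖∫ u in (k - x₁)..x₁, D ((u : ℂ) + y * I)‖ ≤ (2 * x₁ - k) * N / T := fun y hy => by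
      refine (intervalIntegral.norm_integral_le_of_norm_le_const (C := N / T) fun u hu => ?_).trans
        (le_of_eq ?_)
      · rw [uIoc_of_le (by linarith)] at hu
        exact hy ▸ hhor u y ⟨hu.1.le, hu.2⟩ (hy ▸ hT)
      · rw [abs_of_nonneg (by linarith)]
        ring
    obtain ⟨v, hv⟩ : ∃ v, v = (∫ y in (-T)..T, D ((x₁ : ℂ) + y * I)) -
      ∫ y in (-T)..T, D (((k - x₁ : ℝ) : ℂ) + y * I) := ⟨_, rfl⟩
    have h' : I * v = (∫ u in (k - x₁)..x₁, D ((u : ℂ) + (T : ℂ) * I)) -
        ∫ u in (k - x₁)..x₁, D ((u : ℂ) + ((-T : ℝ) : ℂ) * I) := by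
      rw [hv, mul_sub]
      linear_combination h
    rw [← hv, show ‖v‖ = ‖I * v‖ by simp, h']
    refine (norm_sub_le _ _).trans ((add_le_add (hb T (abs_of_nonneg (by linarith)))
      (hb (-T) (by rw [abs_neg, abs_of_nonneg (by linarith)]))).trans (le_of_eq ?_))
    ring
  have hzero : Tendsto (fun T : ℝ => (∫ y in (-T)..T, D ((x₁ : ℂ) + y * I)) -
      ∫ y in (-T)..T, D (((k - x₁ : ℝ) : ℂ) + y * I)) atTop (𝓝 0) :=
    squeeze_zero_norm' ((eventually_ge_atTop 1).mono hrect)
      (tendsto_const_nhds.div_atTop tendsto_id)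
  -- the two sides
  have hside : ∀ c : ℝ, c ≠ 0 → c ≠ k →
      Integrable (fun y : ℝ => lineFun k C a b E x ((c : ℂ) + y * I)) →
      Tendsto (fun T : ℝ => ∫ y in (-T)..T, D ((c : ℂ) + y * I)) atTop
        (𝓝 ((∫ y : ℝ, lineFun k C a b E x ((c : ℂ) + y * I)) +
          a 0 * F 0 * ((if 0 < c then π else -π : ℝ) : ℂ) -
          C * b 0 * F k * ((if 0 < c - k then π else -π : ℝ) : ℂ))) := by
    intro c h0 h1 hi
    have hc : ∀ d : ℝ, d ≠ 0 → Continuous fun y : ℝ => ((d : ℂ) + y * I)⁻¹ := fun d hd' =>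
      (continuous_const.add (continuous_ofReal.mul continuous_const)).inv₀ fun y h =>
        hd' (by simpa using congrArg Complex.re h)
    have e : ∀ T : ℝ, (∫ y in (-T)..T, D ((c : ℂ) + y * I)) =
        (∫ y in (-T)..T, lineFun k C a b E x ((c : ℂ) + y * I)) +
          a 0 * F 0 * (∫ y in (-T)..T, ((c : ℂ) + y * I)⁻¹) -
          C * b 0 * F k * ∫ y in (-T)..T, (((c - k : ℝ) : ℂ) + y * I)⁻¹ := fun T => by
      rw [← intervalIntegral.integral_const_mul, ← intervalIntegral.integral_const_mul,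
        ← intervalIntegral.integral_add hi.intervalIntegrable
          (((hc c h0).const_mul _).intervalIntegrable _ _),
        ← intervalIntegral.integral_sub
          (hi.intervalIntegrable.add (((hc c h0).const_mul _).intervalIntegrable _ _))
          (((hc _ (sub_ne_zero.2 h1)).const_mul _).intervalIntegrable _ _)]
      refine intervalIntegral.integral_congr fun y _ => ?_
      have hs0 : (c : ℂ) + y * I ≠ 0 := fun h => h0 (by simpa using congrArg Complex.re h)
      have hs1 : (c : ℂ) + y * I ≠ k := fun h => h1 (by simpa using congrArg Complex.re h)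
      simp only [hsplit _ hs0 hs1]
      push_cast
      ring
    simp only [e]
    exact ((intervalIntegral_tendsto_integral hi tendsto_neg_atTop_atBot tendsto_id).add
      ((FA.Hamburger.tendsto_integral_inv_line h0).const_mul _)).sub
      ((FA.Hamburger.tendsto_integral_inv_line (sub_ne_zero.2 h1)).const_mul _)
  have hr : ∀ {c : ℕ → ℂ}, Growth c K σ → ∀ {u : ℝ}, 0 < u →
      Integrable fun y : ℝ => completed lam c (x₁ + y * I) * (u : ℂ) ^ (-((x₁ : ℂ) + y * I)) := by
    intro c hc u hu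
    refine (verticalIntegrable_completed hc hl hd.line_gt).mul_bdd
      (c := u ^ (-x₁)) (Continuous.aestronglyMeasurable ?_) (Eventually.of_forall fun y => ?_)
    · exact Continuous.const_cpow (by fun_prop) (Or.inl (ofReal_ne_zero.2 hu.ne'))
    · rw [norm_cpow_eq_rpow_re_of_pos hu]
      simp
  have hi1 : Integrable fun y : ℝ => lineFun k C a b E x ((x₁ : ℂ) + y * I) := by
    simp only [lineFun_right hd x]
    exact hr hd.growth_a hx
  have hi2 : Integrable fun y : ℝ => lineFun k C a b E x (((k - x₁ : ℝ) : ℂ) + y * I) := by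
    simp only [lineFun_left hd hx]
    exact ((hr hd.growth_b (show 0 < 1 / x by positivity)).comp_neg).const_mul _
  have hlim := (hside x₁ hx₁.ne' hkx.ne' hi1).sub
    (hside (k - x₁) (by linarith) (by linarith) hi2)
  have he := tendsto_nhds_unique hlim hzero
  have hI1 : (∫ y : ℝ, lineFun k C a b E x ((x₁ : ℂ) + y * I)) = 2 * π * axis lam a x := by
    simp only [lineFun_right hd x]
    exact integral_completed hd.growth_a hl hd.line_gt hx
  have hI2 : (∫ y : ℝ, lineFun k C a b E x (((k - x₁ : ℝ) : ℂ) + y * I)) =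
      C * ((x ^ (-k) : ℝ) : ℂ) * (2 * π * axis lam b (1 / x)) := by
    simp only [lineFun_left hd hx]
    rw [integral_const_mul, integral_neg_eq_self (fun y : ℝ =>
      completed lam b (x₁ + y * I) * ((1 / x : ℝ) : ℂ) ^ (-((x₁ : ℂ) + y * I)))]
    rw [integral_completed hd.growth_b hl hd.line_gt (by positivity)]
  have hF0 : F 0 = 1 := by simp [hF, powFun]
  have hFk : F k = ((x ^ (-k) : ℝ) : ℂ) := by
    rw [hF, powFun, Complex.ofReal_cpow hx.le, ofReal_neg]
  rw [hI1, hI2, hF0, hFk, if_pos hx₁, if_pos (show 0 < x₁ - k by linarith),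
    if_neg (show ¬0 < k - x₁ by linarith), if_neg (show ¬0 < k - x₁ - k by linarith),
    axis, axis] at he
  push_cast at he
  have hπ : (2 * π : ℂ) ≠ 0 := by exact_mod_cast (show (2 * π : ℝ) ≠ 0 by positivity)
  refine mul_left_cancel₀ hπ ?_
  push_cast
  linear_combination he

theorem transforms_of_continues (hl : 0 < lam) (hk : 0 < k) (ha : Growth a K σ)
    (hb : Growth b K σ) (h : Continues lam k C a b) : Transforms lam k C a b := by
  obtain ⟨E, hE, hbd, R, hR⟩ := h
  obtain ⟨x₁, h1, h2, h3⟩ : ∃ x₁ : ℝ, (σ : ℝ) + 1 < x₁ ∧ k < x₁ ∧ R < x₁ :=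
    ⟨max ((σ : ℝ) + 1) (max k R) + 1, by linarith [le_max_left ((σ : ℝ) + 1) (max k R)],
      by linarith [le_max_right ((σ : ℝ) + 1) (max k R), le_max_left k R],
      by linarith [le_max_right ((σ : ℝ) + 1) (max k R), le_max_right k R]⟩
  have hd : ConverseData lam k C a b E K σ x₁ := ⟨hl, hk, ha, hb, hE, hbd, h1, h2,
    fun s hs => (hR s (hs ▸ h3)).1, fun s hs => (hR s (hs ▸ h3)).2⟩
  obtain ⟨U, hU⟩ : ∃ U : Set ℂ, U = {z | 0 < z.im} := ⟨_, rfl⟩
  have ho : IsOpen U := hU ▸ isOpen_lt continuous_const Complex.continuous_im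
  have hf : DifferentiableOn ℂ (fun z => qSum lam a (-1 / z)) U := by
    subst hU
    refine (differentiableOn_qSum ha hl).comp
      ((differentiableOn_const _).div differentiableOn_id fun z hz e => ?_) fun z hz => ?_
    · simp [e] at hz
    · have hz0 : z ≠ 0 := fun e => by simp [e] at hz
      have hns : 0 < Complex.normSq z := Complex.normSq_pos.2 hz0
      simp only [mem_ofPred_eq] at hz ⊢
      simp [Complex.div_im]
      exact div_neg_of_neg_of_pos (neg_lt_zero.2 hz) hns
  have hg : DifferentiableOn ℂ (fun z => C * (z / I) ^ (k : ℂ) * qSum lam b z) U := by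
    subst hU
    refine ((DifferentiableOn.cpow (differentiableOn_id.div_const _) (differentiableOn_const _)
      fun z hz => Or.inl ?_).const_mul _).mul (differentiableOn_qSum hb hl)
    simpa [Complex.div_re] using hz
  intro z hz
  refine (hf.analyticOnNhd ho).eqOn_of_preconnected_of_frequently_eq (hg.analyticOnNhd ho)
    (hU ▸ (convex_halfSpace_im_gt 0).isPreconnected) (z₀ := I) (by simp [hU]) ?_ (hU ▸ hz)
  have hev : ∀ t : ℝ, 0 < t → qSum lam a (-1 / (I * t)) =
      C * (I * (t : ℂ) / I) ^ (k : ℂ) * qSum lam b (I * t) := fun t ht => by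
    have ht' : (t : ℂ) ≠ 0 := ofReal_ne_zero.2 ht.ne'
    have e1 : -1 / (I * (t : ℂ)) = I * (1 / t : ℝ) := by
      push_cast
      field_simp
      linear_combination -I_sq
    rw [e1, hd.axis_relation (show 0 < 1 / t by positivity), one_div_one_div,
      mul_div_cancel_left₀ _ I_ne_zero, one_div, Real.inv_rpow ht.le, Real.rpow_neg ht.le, inv_inv,
      Complex.ofReal_cpow ht.le]
  have ht : Tendsto (fun t : ℝ => I * (t : ℂ)) (𝓝[≠] 1) (𝓝[≠] I) := by
    refine tendsto_nhdsWithin_iff.2 ⟨?_, ?_⟩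
    · have : Tendsto (fun t : ℝ => I * (t : ℂ)) (𝓝 1) (𝓝 (I * ((1 : ℝ) : ℂ))) :=
        ((continuous_const.mul continuous_ofReal).tendsto _)
      simpa using this.mono_left nhdsWithin_le_nhds
    · filter_upwards [self_mem_nhdsWithin] with t (ht : t ≠ 1)
      simpa [I_ne_zero] using ht
  refine ht.frequently (Eventually.frequently ?_)
  filter_upwards [nhdsWithin_le_nhds (Ioi_mem_nhds zero_lt_one)] with t ht0
  exact hev t ht0

end FA.HeckeConverse

end
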