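import Fermat.Agent.HeckeConverse.Series

/-!
# From the transformation to the continuation

If `F (-1/z) = C (z/i)^k G z` then the completed series continue to an entire function, bounded on
vertical strips, up to the polar terms `a 0 / s` and `C b 0 / (k - s)`.
-/

set_option autoImplicit false

noncomputable section

namespace FA.HeckeConverse

open Complex Filter Topology Asymptotics Set MeasureTheory
open scoped Real

variable {lam k : ℝ} {C : ℂ} {a b : ℕ → ℂ} {K : ℝ} {σ : ℕ}

/-- `F (-1/z) = C (z/i)^k G z` on the upper half plane. -/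
def Transforms (lam k : ℝ) (C : ℂ) (a b : ℕ → ℂ) : Prop :=
  ∀ z : ℂ, 0 < z.im → qSum lam a (-1 / z) = C * (z / I) ^ (k : ℂ) * qSum lam b z

/-- `E` is entire, bounded on vertical strips, and continues the two completed series. -/
def Continues (lam k : ℝ) (C : ℂ) (a b : ℕ → ℂ) : Prop :=
  ∃ E : ℂ → ℂ, Differentiable ℂ E ∧
    (∀ x y : ℝ, ∃ M : ℝ, ∀ s : ℂ, x ≤ s.re → s.re ≤ y → ‖E s‖ ≤ M) ∧
    ∃ R : ℝ, ∀ s : ℂ, R < s.re →
      E s = completed lam a s + a 0 / s + C * b 0 / (k - s) ∧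
      E (k - s) = C * (completed lam b s + b 0 / s) + a 0 / (k - s)

theorem Transforms.on_axis (h : Transforms lam k C a b) {t : ℝ} (ht : 0 < t) :
    qSum lam a (I * (1 / t : ℝ)) = C * ((t ^ k : ℝ) : ℂ) * qSum lam b (I * t) := by
  have ht' : (t : ℂ) ≠ 0 := ofReal_ne_zero.2 ht.ne'
  have hz := h (I * t) (by simpa using ht)
  have e1 : -1 / (I * (t : ℂ)) = I * (1 / t : ℝ) := by
    push_cast
    field_simp
    linear_combination -I_sq
  rw [← e1, hz, mul_div_cancel_left₀ _ I_ne_zero, Complex.ofReal_cpow ht.le]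

theorem continuousOn_qSum_axis (ha : Growth a K σ) (hl : 0 < lam) :
    ContinuousOn (fun t : ℝ => qSum lam a (I * t)) (Ioi 0) :=
  (differentiableOn_qSum ha hl).continuousOn.comp (by fun_prop) fun t ht => by simpa using ht

/-- The functions on the imaginary axis as a pair in the sense of Mathlib. -/
def fePair (hl : 0 < lam) (hk : 0 < k) (hC : C ≠ 0) (ha : Growth a K σ) (hb : Growth b K σ)
    (h : Transforms lam k C a b) : WeakFEPair ℂ where
  f t := qSum lam a (I * t)
  g t := qSum lam b (I * t)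
  k := k
  ε := C
  f₀ := a 0
  g₀ := b 0
  hf_int := (continuousOn_qSum_axis ha hl).locallyIntegrableOn measurableSet_Ioi
  hg_int := (continuousOn_qSum_axis hb hl).locallyIntegrableOn measurableSet_Ioi
  hk := hk
  hε := hC
  h_feq _ ht := h.on_axis ht
  hf_top r := isBigO_axis_top ha hl r
  hg_top r := isBigO_axis_top hb hl r

/-- `Λ₀` of a pair is bounded on vertical strips. -/
theorem exists_norm_lambda₀_le (P : WeakFEPair ℂ) (x y : ℝ) :
    ∃ M : ℝ, ∀ s : ℂ, x ≤ s.re → s.re ≤ y → ‖P.Λ₀ s‖ ≤ M := by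
  obtain ⟨f, hf⟩ : ∃ f, f = P.f_modif := ⟨_, rfl⟩
  have habs : ∀ c : ℝ, IntegrableOn (fun u : ℝ => u ^ c * ‖f u‖) (Ioi 0) := fun c => by
    have h : IntegrableOn (fun u : ℝ => ‖(u : ℂ) ^ (((c + 1 : ℝ) : ℂ) - 1) • f u‖) (Ioi 0) :=
      Integrable.norm (hf ▸ (P.isStrongFEPair_toStrongFEPair.hasMellin ((c + 1 : ℝ) : ℂ)).1)
    refine h.congr_fun (fun u hu => ?_) measurableSet_Ioi
    simp only [norm_smul]
    rw [norm_cpow_eq_rpow_re_of_pos hu]
    simp
  refine ⟨∫ u in Ioi (0 : ℝ), (u ^ (x - 1) * ‖f u‖ + u ^ (y - 1) * ‖f u‖), fun s hx hy => ?_⟩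
  rw [WeakFEPair.Λ₀, ← hf, mellin]
  refine norm_integral_le_of_norm_le ((habs (x - 1)).fun_add (habs (y - 1))) ?_
  filter_upwards [ae_restrict_mem measurableSet_Ioi] with u hu
  have hu0 : 0 < u := hu
  rw [norm_smul, norm_cpow_eq_rpow_re_of_pos hu0, ← add_mul, show (s - 1).re = s.re - 1 by simp]
  refine mul_le_mul_of_nonneg_right ?_ (norm_nonneg _)
  rcases le_total u 1 with h1 | h1
  · exact (Real.rpow_le_rpow_of_exponent_ge hu0 h1 (by linarith)).trans
      (le_add_of_nonneg_right (Real.rpow_nonneg hu0.le _))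
  · exact (Real.rpow_le_rpow_of_exponent_le h1 (by linarith)).trans
      (le_add_of_nonneg_left (Real.rpow_nonneg hu0.le _))

theorem continues_of_transforms (hl : 0 < lam) (hk : 0 < k) (hC : C ≠ 0) (ha : Growth a K σ)
    (hb : Growth b K σ) (h : Transforms lam k C a b) : Continues lam k C a b := by
  obtain ⟨P, hP⟩ : ∃ P, P = fePair hl hk hC ha hb h := ⟨_, rfl⟩
  refine ⟨P.Λ₀, P.differentiable_Λ₀, exists_norm_lambda₀_le P, max k ((σ : ℝ) + 1),
    fun s hs => ?_⟩
  obtain ⟨hsk, hsσ⟩ := max_lt_iff.1 hs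
  have hA : P.Λ s = completed lam a s := by
    subst hP
    rw [← ((fePair hl hk hC ha hb h).hasMellin hsk).2, ← mellin_axis ha hl hsσ]
    rfl
  have hB : P.symm.Λ s = completed lam b s := by
    subst hP
    rw [← ((fePair hl hk hC ha hb h).symm.hasMellin hsk).2, ← mellin_axis hb hl hsσ]
    rfl
  constructor
  · rw [P.Λ₀_eq, hA]
    simp only [hP, fePair, smul_eq_mul]
    ring
  · subst hP
    have e := (fePair hl hk hC ha hb h).functional_equation₀ s
    simp only [WeakFEPair.symm_Λ₀_eq, hB, smul_eq_mul] at e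
    simp only [fePair] at e ⊢
    rw [e]
    field_simp

end FA.HeckeConverse

end
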