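import Mathlib

/-!
# Fourier series with coefficients of polynomial growth

`qSum lam a z = ∑ a n exp (2 π i n z / lam)` on the upper half plane, and the Mellin transform of
`t ↦ qSum lam a (i t) - a 0`, which is `(2 π / lam)^(-s) Γ(s) ∑ a n n^(-s)`.
-/

set_option autoImplicit false

noncomputable section

namespace FA.HeckeConverse

open Complex Filter Topology Asymptotics Set MeasureTheory
open scoped Real

variable {lam : ℝ} {a : ℕ → ℂ} {K : ℝ} {σ : ℕ}

/-- `‖a n‖ ≤ K n^σ` for `n ≠ 0`. -/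
def Growth (a : ℕ → ℂ) (K : ℝ) (σ : ℕ) : Prop := ∀ n : ℕ, n ≠ 0 → ‖a n‖ ≤ K * (n : ℝ) ^ σ

/-- `∑ a n exp (2 π i n z / lam)`. -/
def qSum (lam : ℝ) (a : ℕ → ℂ) (z : ℂ) : ℂ :=
  ∑' n : ℕ, a n * Function.Periodic.qParam lam z ^ n

/-- `qSum` on the imaginary axis, less its constant term. -/
def axis (lam : ℝ) (a : ℕ → ℂ) (t : ℝ) : ℂ := qSum lam a (I * t) - a 0

/-- The completed Dirichlet series `(2 π / lam)^(-s) Γ(s) ∑ a n n^(-s)`. -/
def completed (lam : ℝ) (a : ℕ → ℂ) (s : ℂ) : ℂ :=
  ((2 * π / lam : ℝ) : ℂ) ^ (-s) * Complex.Gamma s * LSeries a s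

theorem Growth.nonneg (ha : Growth a K σ) : 0 ≤ K := by
  simpa using (norm_nonneg _).trans (ha 1 one_ne_zero)

theorem summable_norm_coeff (ha : Growth a K σ) {c : ℝ} (hc : 0 < c) :
    Summable fun n : ℕ => ‖a n‖ * Real.exp (-(c * n)) := by
  refine Summable.of_nonneg_of_le (fun n => by positivity) (fun n => ?_)
    (((Real.summable_pow_mul_exp_neg_nat_mul σ hc).mul_left K).add
      (hasSum_ite_eq (0 : ℕ) ‖a 0‖).summable)
  rcases eq_or_ne n 0 with rfl | hn
  · simp
    nlinarith [ha.nonneg, pow_nonneg (le_refl (0 : ℝ)) σ]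
  · rw [if_neg hn, add_zero, neg_mul, ← mul_assoc]
    exact mul_le_mul_of_nonneg_right (ha n hn) (Real.exp_pos _).le

theorem norm_qParam_pow (z : ℂ) (n : ℕ) :
    ‖Function.Periodic.qParam lam z ^ n‖ = Real.exp (-(2 * π * z.im / lam * n)) := by
  rw [norm_pow, Function.Periodic.norm_qParam, ← Real.exp_nat_mul]
  ring_nf

theorem hasSum_qSum (ha : Growth a K σ) (hl : 0 < lam) {z : ℂ} (hz : 0 < z.im) :
    HasSum (fun n : ℕ => a n * Function.Periodic.qParam lam z ^ n) (qSum lam a z) := by
  refine (Summable.of_norm ?_).hasSum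
  simp only [norm_mul, norm_qParam_pow]
  exact summable_norm_coeff ha (by positivity)

theorem differentiableOn_qSum (ha : Growth a K σ) (hl : 0 < lam) :
    DifferentiableOn ℂ (qSum lam a) {z : ℂ | 0 < z.im} := by
  intro z hz
  have hε : 0 < z.im / 2 := half_pos hz
  have ho : IsOpen {w : ℂ | z.im / 2 < w.im} := isOpen_lt continuous_const Complex.continuous_im
  have h : DifferentiableOn ℂ (qSum lam a) {w : ℂ | z.im / 2 < w.im} := by
    refine differentiableOn_tsum_of_summable_norm
      (summable_norm_coeff ha (c := 2 * π * (z.im / 2) / lam) (by positivity))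
      (fun n => (Differentiable.const_mul (Differentiable.pow ?_ n) _).differentiableOn) ho
      fun n w hw => ?_
    · exact Function.Periodic.differentiable_qParam
    · rw [norm_mul, norm_qParam_pow]
      refine mul_le_mul_of_nonneg_left (Real.exp_le_exp.2 (neg_le_neg ?_)) (norm_nonneg _)
      have : z.im / 2 ≤ w.im := le_of_lt hw
      gcongr
  exact (h.differentiableAt (ho.mem_nhds (show z.im / 2 < z.im by linarith [(hz : 0 < z.im)])))
    |>.differentiableWithinAt

theorem hasSum_axis (ha : Growth a K σ) (hl : 0 < lam) {t : ℝ} (ht : 0 < t) :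
    HasSum (fun n : ℕ => (if n = 0 then 0 else a n) *
      ((Real.exp (-(2 * π * n / lam) * t) : ℝ) : ℂ)) (axis lam a t) := by
  have h := (hasSum_qSum ha hl (z := I * t) (by simpa using ht)).sub (hasSum_ite_eq (0 : ℕ) (a 0))
  refine h.congr_fun fun n => ?_
  rcases eq_or_ne n 0 with rfl | hn
  · simp
  · rw [if_neg hn, if_neg hn, sub_zero, Function.Periodic.qParam, ← Complex.exp_nat_mul,
      Complex.ofReal_exp]
    congr 2
    push_cast
    linear_combination (-2 * (π : ℂ) * t * n / lam) * I_sq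

/-- The two bounds on `axis`. -/
theorem exists_norm_axis_le (ha : Growth a K σ) (hl : 0 < lam) :
    ∃ M : ℝ, 0 ≤ M ∧ (∀ t : ℝ, 0 < t → t ≤ 1 → ‖axis lam a t‖ ≤ M * t ^ (-((σ : ℝ) + 1))) ∧
      ∀ t : ℝ, 1 ≤ t → ‖axis lam a t‖ ≤ M * Real.exp (-(2 * π / lam) * t) := by
  obtain ⟨c, hc⟩ : ∃ c, c = 2 * π / lam := ⟨_, rfl⟩
  have hc0 : 0 < c := by rw [hc]; positivity
  have hK := ha.nonneg
  set M₁ : ℝ := K * σ.factorial * (2 / c) ^ σ * (1 + 2 / c)
  set M₂ : ℝ := Real.exp c * ∑' n : ℕ, ‖a n‖ * Real.exp (-(c * n))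
  refine ⟨max M₁ M₂, le_max_of_le_left (by positivity), fun t ht ht1 => ?_, fun t ht => ?_⟩
  · have hu : 0 < c * t / 2 := by positivity
    have hr1 : Real.exp (-(c * t / 2)) < 1 := Real.exp_lt_one_iff.2 (by linarith)
    have hgeo := (hasSum_geometric_of_lt_one (Real.exp_pos _).le hr1).mul_left
      (K * σ.factorial * (2 / (c * t)) ^ σ)
    rw [← (hasSum_axis ha hl ht).tsum_eq]
    refine (tsum_of_norm_bounded hgeo fun n => ?_).trans ?_
    · rcases eq_or_ne n 0 with rfl | hn
      · simp
        positivity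
      rw [if_neg hn, norm_mul, Complex.norm_real, Real.norm_of_nonneg (Real.exp_pos _).le,
        ← Real.exp_nat_mul, show -(2 * π * n / lam) * t = -(c * t / 2 * n) + -(c * t / 2 * n) by
          rw [hc]; ring, Real.exp_add, show (n : ℝ) * -(c * t / 2) = -(c * t / 2 * n) by ring,
        ← mul_assoc]
      refine mul_le_mul_of_nonneg_right ?_ (Real.exp_pos _).le
      refine (mul_le_mul_of_nonneg_right (ha n hn) (Real.exp_pos _).le).trans ?_
      have hp := Real.pow_div_factorial_le_exp (x := c * t / 2 * n) (by positivity) σ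
      rw [div_le_iff₀ (by positivity)] at hp
      rw [Real.exp_neg, ← div_eq_mul_inv, div_le_iff₀ (Real.exp_pos _), mul_assoc, mul_assoc]
      refine mul_le_mul_of_nonneg_left ?_ hK
      calc (n : ℝ) ^ σ = (2 / (c * t)) ^ σ * (c * t / 2 * n) ^ σ := by
            rw [← mul_pow]; congr 1; field_simp
        _ ≤ (2 / (c * t)) ^ σ * (Real.exp (c * t / 2 * n) * σ.factorial) :=
            mul_le_mul_of_nonneg_left hp (by positivity)
        _ = _ := by ring
    · have hgeom : (1 - Real.exp (-(c * t / 2)))⁻¹ ≤ (1 + 2 / c) / t := by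
        have h1 := Real.add_one_le_exp (c * t / 2)
        have h2 : Real.exp (-(c * t / 2)) ≤ 1 / (1 + c * t / 2) := by
          rw [Real.exp_neg, one_div]
          exact inv_anti₀ (by positivity) (by linarith)
        have h3 : c * t / 2 / (1 + c * t / 2) ≤ 1 - Real.exp (-(c * t / 2)) := by
          have : c * t / 2 / (1 + c * t / 2) = 1 - 1 / (1 + c * t / 2) := by field_simp; ring
          linarith
        refine (inv_anti₀ (by positivity) h3).trans ?_
        rw [inv_div, div_le_div_iff₀ hu ht]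
        have : (1 + 2 / c) * (c * t / 2) = c * t / 2 + t := by field_simp
        rw [this]
        nlinarith
      refine (mul_le_mul_of_nonneg_left hgeom (by positivity)).trans (le_trans (le_of_eq ?_)
        (mul_le_mul_of_nonneg_right (le_max_left M₁ M₂) (Real.rpow_nonneg ht.le _)))
      rw [Real.rpow_neg ht.le, Real.rpow_add ht, Real.rpow_natCast, Real.rpow_one]
      simp only [M₁]
      rw [show (2 / (c * t)) ^ σ = (2 / c) ^ σ / t ^ σ by rw [← div_pow, div_div]]
      field_simp
  · have hs := summable_norm_coeff ha hc0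
    rw [← (hasSum_axis ha hl (show 0 < t by linarith)).tsum_eq]
    refine (tsum_of_norm_bounded (hs.hasSum.mul_left (Real.exp c * Real.exp (-c * t))) fun n => ?_)
      |>.trans (le_trans (le_of_eq ?_) (mul_le_mul_of_nonneg_right (le_max_right M₁ M₂)
        (Real.exp_pos _).le))
    · rcases eq_or_ne n 0 with rfl | hn
      · simp
        positivity
      rw [if_neg hn, norm_mul, Complex.norm_real, Real.norm_of_nonneg (Real.exp_pos _).le,
        mul_left_comm (Real.exp c * Real.exp (-c * t))]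
      refine mul_le_mul_of_nonneg_left ?_ (norm_nonneg _)
      rw [← Real.exp_add, ← Real.exp_add, Real.exp_le_exp]
      have h1 : (1 : ℝ) ≤ n := by exact_mod_cast Nat.one_le_iff_ne_zero.2 hn
      have h2 : -(2 * π * n / lam) * t = -(c * n * t) := by rw [hc]; ring
      rw [h2]
      nlinarith [mul_nonneg (mul_nonneg hc0.le (sub_nonneg.2 h1)) (sub_nonneg.2 ht)]
    · simp only [M₂, hc]
      ring

theorem continuousOn_axis (ha : Growth a K σ) (hl : 0 < lam) :
    ContinuousOn (axis lam a) (Ioi 0) :=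
  (((differentiableOn_qSum ha hl).continuousOn.comp (by fun_prop) fun t ht => by
    simpa using ht)).sub continuousOn_const

theorem isBigO_axis_zero (ha : Growth a K σ) (hl : 0 < lam) :
    axis lam a =O[𝓝[>] 0] (· ^ (-((σ : ℝ) + 1))) := by
  obtain ⟨M, -, h, -⟩ := exists_norm_axis_le ha hl
  refine IsBigO.of_bound M (eventually_of_mem (Ioo_mem_nhdsGT zero_lt_one) fun t ht => ?_)
  rw [Real.norm_of_nonneg (Real.rpow_nonneg ht.1.le _)]
  exact h t ht.1 ht.2.le

theorem isBigO_axis_top (ha : Growth a K σ) (hl : 0 < lam) (r : ℝ) :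
    axis lam a =O[atTop] (· ^ r) := by
  obtain ⟨M, -, -, h⟩ := exists_norm_axis_le ha hl
  refine (IsBigO.of_bound M ((eventually_ge_atTop 1).mono fun t ht => ?_)).trans
    (isLittleO_exp_neg_mul_rpow_atTop (show 0 < 2 * π / lam by positivity) r).isBigO
  rw [Real.norm_of_nonneg (Real.exp_pos _).le]
  exact h t ht

theorem mellinConvergent_axis (ha : Growth a K σ) (hl : 0 < lam) {s : ℂ}
    (hs : (σ : ℝ) + 1 < s.re) : MellinConvergent (axis lam a) s :=
  mellinConvergent_of_isBigO_rpow ((continuousOn_axis ha hl).locallyIntegrableOn measurableSet_Ioi)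
    (isBigO_axis_top ha hl (-(s.re + 1))) (by linarith) (isBigO_axis_zero ha hl) hs

theorem summable_term (ha : Growth a K σ) {s : ℂ} (hs : (σ : ℝ) + 1 < s.re) :
    LSeriesSummable a s :=
  LSeriesSummable_of_le_const_mul_rpow hs
    ⟨K, fun n hn => by rw [add_sub_cancel_right, Real.rpow_natCast]; exact ha n hn⟩

/-- The Mellin transform of `axis` is the completed Dirichlet series. -/
theorem mellin_axis (ha : Growth a K σ) (hl : 0 < lam) {s : ℂ} (hs : (σ : ℝ) + 1 < s.re) :
    mellin (axis lam a) s = completed lam a s := by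
  have hs0 : 0 < s.re := lt_of_le_of_lt (by positivity) hs
  have hc : 0 < 2 * π / lam := by positivity
  have hsum := summable_term ha hs
  have h := hasSum_mellin (a := fun n : ℕ => if n = 0 then 0 else a n)
    (p := fun n : ℕ => 2 * π * n / lam) (F := axis lam a) (s := s) (fun n => ?_) hs0
    (fun t ht => hasSum_axis ha hl ht) ?_
  · refine h.unique ?_
    have e := hsum.hasSum.mul_left (((2 * π / lam : ℝ) : ℂ) ^ (-s) * Complex.Gamma s)
    refine e.congr_fun fun n => ?_
    rcases eq_or_ne n 0 with rfl | hn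
    · simp
    rw [if_neg hn, LSeries.term_of_ne_zero hn, show (2 * π * n / lam : ℝ) = 2 * π / lam * n by ring,
      ofReal_mul, mul_cpow_ofReal_nonneg hc.le (Nat.cast_nonneg n), cpow_neg, ofReal_natCast]
    field_simp
  · rcases eq_or_ne n 0 with rfl | hn
    · exact Or.inl (if_pos rfl)
    · exact Or.inr (by positivity)
  · refine (hsum.norm.mul_left ((2 * π / lam) ^ (-s.re))).congr fun n => ?_
    rcases eq_or_ne n 0 with rfl | hn
    · simp
    rw [if_neg hn, LSeries.norm_term_eq, if_neg hn, show (2 * π * n / lam : ℝ) = 2 * π / lam * n by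
      ring, Real.mul_rpow hc.le (Nat.cast_nonneg n), Real.rpow_neg hc.le]
    field_simp

/-- `Γ` is bounded on vertical lines, with a polynomial gain. -/
theorem norm_mul_Gamma_le {s : ℂ} (hs : 0 < s.re) :
    ‖s * Complex.Gamma s‖ ≤ Real.Gamma (s.re + 1) ∧
      ‖s * (s + 1) * Complex.Gamma s‖ ≤ Real.Gamma (s.re + 2) := by
  have key : ∀ w : ℂ, 0 < w.re → ‖Complex.Gamma w‖ ≤ Real.Gamma w.re := fun w hw => by
    rw [Complex.Gamma_eq_integral hw, Real.Gamma_eq_integral hw]
    refine norm_integral_le_of_norm_le (Real.GammaIntegral_convergent hw) ?_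
    filter_upwards [ae_restrict_mem measurableSet_Ioi] with x (hx : 0 < x)
    rw [norm_mul, Complex.norm_real, Real.norm_of_nonneg (Real.exp_pos _).le,
      norm_cpow_eq_rpow_re_of_pos hx]
    simp
  have h0 : s ≠ 0 := fun h => by simp [h] at hs
  have h1 : s + 1 ≠ 0 := fun h => by
    have := congrArg Complex.re h
    simp at this
    linarith
  constructor
  · rw [← Complex.Gamma_add_one s h0]
    simpa using key (s + 1) (by simp; linarith)
  · rw [show s * (s + 1) * Complex.Gamma s = (s + 1) * (s * Complex.Gamma s) by ring,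
      ← Complex.Gamma_add_one s h0, ← Complex.Gamma_add_one _ h1]
    simpa [add_assoc, show (1 : ℝ) + 1 = 2 by norm_num] using
      key (s + 1 + 1) (by simp; linarith)

/-- The completed series on the line `re s = x`. -/
theorem exists_norm_completed_le (ha : Growth a K σ) (hl : 0 < lam) {x : ℝ}
    (hx : (σ : ℝ) + 1 < x) :
    ∃ B : ℝ, 0 ≤ B ∧ ∀ s : ℂ, s.re = x →
      ‖s * completed lam a s‖ ≤ B ∧ ‖s * (s + 1) * completed lam a s‖ ≤ B := by
  have hx0 : 0 < x := lt_of_le_of_lt (by positivity) hx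
  obtain ⟨S, hS⟩ : ∃ S, S = (2 * π / lam) ^ (-x) * ∑' n, ‖LSeries.term a (x : ℂ) n‖ := ⟨_, rfl⟩
  have hS0 : 0 ≤ S := by
    rw [hS]
    exact mul_nonneg (Real.rpow_nonneg (by positivity) _) (tsum_nonneg fun _ => norm_nonneg _)
  refine ⟨S * max (Real.Gamma (x + 1)) (Real.Gamma (x + 2)),
    mul_nonneg hS0 (le_max_of_le_left (Real.Gamma_nonneg_of_nonneg (by linarith))),
    fun s hs => ?_⟩
  subst hs
  obtain ⟨g1, g2⟩ := norm_mul_Gamma_le hx0
  have hL : ‖((2 * π / lam : ℝ) : ℂ) ^ (-s) * LSeries a s‖ ≤ S := by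
    rw [norm_mul, norm_cpow_eq_rpow_re_of_pos (by positivity), neg_re, hS]
    refine mul_le_mul_of_nonneg_left ((norm_tsum_le_tsum_norm (summable_term ha hx).norm).trans
      (le_of_eq (tsum_congr fun n => ?_))) (Real.rpow_nonneg (by positivity) _)
    rw [LSeries.norm_term_eq, LSeries.norm_term_eq, ofReal_re]
  have aux : ∀ (c : ℂ) (G : ℝ), ‖c * Complex.Gamma s‖ ≤ G → ‖c * completed lam a s‖ ≤ S * G := by
    intro c G hG
    rw [completed, show c * (((2 * π / lam : ℝ) : ℂ) ^ (-s) * Complex.Gamma s * LSeries a s) =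
      (((2 * π / lam : ℝ) : ℂ) ^ (-s) * LSeries a s) * (c * Complex.Gamma s) by ring, norm_mul]
    exact mul_le_mul hL hG (norm_nonneg _) hS0
  exact ⟨aux _ _ (g1.trans (le_max_left _ _)), aux _ _ (g2.trans (le_max_right _ _))⟩

end FA.HeckeConverse

end
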